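/-
GATE-E (S59, modularity lifting) / GRAPH, the ENGINE CONTRACT (helper10, gate lead).

This Prelude-only file fixes the interface between the TOP (helper33, `GE/Top/S59Nodes`:
`ModPointStmt p`) and the ENGINE (E6 minimal `R = T`, E8 minimal level, E9 non-minimal).

* `condFL 𝒪 p Smin Sig`, `condSO 𝒪 p Smin Sig` : the deformation problems `𝒟^c_Σ` — the FROZEN S56
  shape with the Taylor–Wiles set `Q` replaced by `Σ` (unrestricted at `Σ`, unipotent at `Smin`,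
  flat / strict-ordinary at `p`, `det = cyc`, unramified outside `Smin ∪ Σ`).
* `RTData 𝒟 ρbar` : an `R = T` datum: level `N`, set `S`, ring `T` with `π : 𝕋_S(N) → T`, a Galois
  representation over `T` with `charpoly ρ_T(Frob_ℓ) = X² − π(T_ℓ) X + ℓ`, a universal deformation
  ring `D` of type `𝒟` and a BIJECTIVE `φ : D.R → T` carrying `ρ^univ` to `ρ_T`.
  (Deliberately NOT the frozen `HeckeGaloisRepDatum`: its field `exists_point` fails for the
  `p`-new quotient needed when `W` is multiplicative at `p` and `ρ̄` is peu ramifiée.)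
* `RTData.exists_point` : **the plug** — every `𝒪`-valued deformation of type `𝒟` is modular:
  a ring hom `χ : 𝕋_S(N) → 𝒪` with `charpoly ρ(Frob_ℓ) = X² − χ(T_ℓ) X + ℓ`.
-/
import Fermat.Prelude.Def_GaloisRep_DeformationRingData
import Fermat.Prelude.Def_GaloisRep_Flat
import Fermat.Prelude.Def_GaloisRep_StrictOrdinary
import Fermat.Prelude.Def_CuspForm_HeckeAlgebra

set_option autoImplicit false

open Polynomial IsLocalRing CuspForm

namespace Fermat.Agent.GE.Graph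

/-- `G_ℚ`. -/
local notation "GQ" => (AlgebraicClosure ℚ ≃ₐ[ℚ] AlgebraicClosure ℚ)

/-- the type of deformation conditions -/
abbrev DefCondE (𝒪 : Type) [CommRing 𝒪] : Type 1 :=
  ∀ ⦃A : Type⦄ [CommRing A] [IsLocalRing A] [Algebra 𝒪 A], GaloisRepAdic A → Prop

/-- `𝒟^{fl}_Σ` : flat at `p`, `det = cyc`, unramified outside `Smin ∪ Σ`, unipotent at `Smin`. -/
def condFL (𝒪 : Type) [CommRing 𝒪] (p : ℕ) (Smin Sig : Finset ℕ) : DefCondE 𝒪 :=
  fun _A _ _ _ ρ => GaloisRep.flatCondition 𝒪 p (Smin ∪ Sig) ρ ∧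
    ∀ q ∈ Smin, q.Prime → q ≠ p → ρ.IsUnipotentOnInertiaAt q

/-- `𝒟^{so}_Σ` : strict-ordinary at `p`, `det = cyc`, unramified outside `Smin ∪ Σ`, unipotent at
`Smin`. -/
def condSO (𝒪 : Type) [CommRing 𝒪] (p : ℕ) (Smin Sig : Finset ℕ) : DefCondE 𝒪 :=
  fun _A _ _ _ ρ => GaloisRep.strictOrdinaryCondition 𝒪 p (Smin ∪ Sig) ρ ∧
    ∀ q ∈ Smin, q.Prime → q ≠ p → ρ.IsUnipotentOnInertiaAt q

section

variable {𝒪 : Type} [CommRing 𝒪] [IsDomain 𝒪] [IsDiscreteValuationRing 𝒪]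
  [IsAdicComplete (maximalIdeal 𝒪) 𝒪]

/-- **An `R = T` datum** for the deformation problem `𝒟` of `ρbar`. -/
structure RTData (ρbar : ResidualGaloisRep (ResidueField 𝒪)) (𝒟 : DefCondE 𝒪) : Type 1 where
  /-- the level -/
  N : ℕ
  [neN : NeZero N]
  /-- the primes removed from the Hecke algebra -/
  S : Set ℕ
  /-- the Hecke ring -/
  T : Type
  [crT : CommRing T]
  [locT : IsLocalRing T]
  [algT : Algebra 𝒪 T]
  π : heckeAlgebra N 2 S →+* T
  /-- the Galois representation over `T` -/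
  ρT : GaloisRepAdic T
  charpoly_frob : ∀ (ℓ : ℕ) (hℓ : ℓ.Prime) (hℓN : ¬ ℓ ∣ N) (hℓS : ℓ ∉ S),
    ∀ A : ValuationSubring (AlgebraicClosure ℚ), A.LiesOverPrime ℓ →
      ∀ σ : GQ, A.IsFrobeniusAt σ ℓ →
        LinearMap.charpoly (ρT.ρ σ) = X ^ 2 - C (π (heckeAlgebra.T hℓ hℓN hℓS)) * X + C ((ℓ : T))
  /-- the universal deformation ring -/
  D : GaloisRep.DeformationRingData 𝒪 ρbar 𝒟
  φ : D.R →ₐ[𝒪] T
  φ_bijective : Function.Bijective φ
  φ_local : IsLocalHom (φ : D.R →+* T)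
  φ_ρ : (D.ρ.baseChangeAlong (φ : D.R →+* T) φ_local).IsEquiv ρT

attribute [instance] RTData.neN RTData.crT RTData.locT RTData.algT

theorem charpoly_eq_of_isEquivE {A : Type} [CommRing A] [IsLocalRing A] {ρ₁ ρ₂ : GaloisRepAdic A}
    (h : ρ₁.IsEquiv ρ₂) (σ : GQ) :
    LinearMap.charpoly (ρ₁.ρ σ) = LinearMap.charpoly (ρ₂.ρ σ) := by
  obtain ⟨e⟩ := h
  have h2 : ρ₂.ρ σ = e.toLinearEquiv.conj (ρ₁.ρ σ) := by
    apply LinearMap.ext
    intro x
    rw [LinearEquiv.conj_apply_apply, e.map_apply, LinearEquiv.apply_symm_apply]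
  rw [h2, LinearEquiv.charpoly_conj]

theorem charpoly_baseChangeAlongE {A B : Type} [CommRing A] [IsLocalRing A] [CommRing B]
    [IsLocalRing B] (φ : A →+* B) (hφ : IsLocalHom φ) (ρ : GaloisRepAdic A) (σ : GQ) :
    LinearMap.charpoly ((ρ.baseChangeAlong φ hφ).ρ σ) = (LinearMap.charpoly (ρ.ρ σ)).map φ := by
  let _ : Algebra A B := φ.toAlgebra
  exact LinearMap.charpoly_baseChange (ρ.ρ σ) B

variable [IsNoetherianRing 𝒪]

/-- **The plug**: with an `R = T` datum, every `𝒪`-valued deformation of type `𝒟` is modular. -/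
theorem RTData.exists_point {ρbar : ResidualGaloisRep (ResidueField 𝒪)} {𝒟 : DefCondE 𝒪}
    (X' : RTData ρbar 𝒟) (ρ : GaloisRepAdic 𝒪) (h𝒟 : 𝒟 ρ)
    (hres : ρ.residual.IsEquiv
      (ρbar.baseChangeAlong (ResidueField.map (algebraMap 𝒪 𝒪)))) :
    ∃ χ : heckeAlgebra X'.N 2 X'.S →+* 𝒪,
      ∀ (ℓ : ℕ) (hℓ : ℓ.Prime) (hℓN : ¬ ℓ ∣ X'.N) (hℓS : ℓ ∉ X'.S),
        ∀ A : ValuationSubring (AlgebraicClosure ℚ), A.LiesOverPrime ℓ →
          ∀ σ : GQ, A.IsFrobeniusAt σ ℓ →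
            LinearMap.charpoly (ρ.ρ σ) =
              X ^ 2 - C (χ (heckeAlgebra.T hℓ hℓN hℓS)) * X + C ((ℓ : 𝒪)) := by
  have hsurj : Function.Surjective (residue 𝒪 ∘ algebraMap 𝒪 𝒪) := by
    intro x
    obtain ⟨y, rfl⟩ := residue_surjective x
    exact ⟨y, rfl⟩
  obtain ⟨f, ⟨hf, hfρ⟩, -⟩ := X'.D.universal 𝒪 hsurj ρ h𝒟 hres
  let e : X'.D.R ≃+* X'.T := RingEquiv.ofBijective (X'.φ : X'.D.R →+* X'.T) X'.φ_bijective
  let g : X'.T →+* 𝒪 := (f : X'.D.R →+* 𝒪).comp (e.symm : X'.T →+* X'.D.R)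
  refine ⟨g.comp X'.π, fun ℓ hℓ hℓN hℓS A hA σ hσ => ?_⟩
  -- the characteristic polynomial over `T`
  have h1 := X'.charpoly_frob ℓ hℓ hℓN hℓS A hA σ hσ
  rw [← charpoly_eq_of_isEquivE X'.φ_ρ σ, charpoly_baseChangeAlongE] at h1
  -- the characteristic polynomial over `𝒪`
  have h2 : LinearMap.charpoly (ρ.ρ σ) = (LinearMap.charpoly (X'.D.ρ.ρ σ)).map (f : X'.D.R →+* 𝒪) := by
    rw [← charpoly_eq_of_isEquivE hfρ σ, charpoly_baseChangeAlongE]
  have hgφ : g.comp (X'.φ : X'.D.R →+* X'.T) = (f : X'.D.R →+* 𝒪) := by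
    ext x
    show f (e.symm (e x)) = f x
    rw [RingEquiv.symm_apply_apply]
  rw [h2, ← hgφ, ← Polynomial.map_map, h1]
  simp only [Polynomial.map_sub, Polynomial.map_add, Polynomial.map_mul, Polynomial.map_pow,
    Polynomial.map_X, Polynomial.map_C, map_natCast, RingHom.comp_apply, Polynomial.map_natCast]

end

end Fermat.Agent.GE.Graph
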