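/-
GATE-E (S59, modularity lifting) / GRAPH, the ENGINE CONTRACT in the vocabulary of frozen S59
(helper10, gate lead).

`RTStmtFL p` / `RTStmtSO p` : for `W` as in frozen S59, GOOD at `p` (resp. MULTIPLICATIVE at `p`):
there are a coefficient ring `𝒪`, the frozen-S56 set `Smin` of `ρ̄ = W[p] ⊗ k`, the set `Σ` of bad
primes of `W` outside `Smin`, and an `R = T` datum (`GE/Graph/RTStmt.RTData`) for `𝒟^{fl}_Σ`
(resp. `𝒟^{so}_Σ`) at an admissible level `N`.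

These two `Prop`s are THE output of the engine (E6 + E8 + E9).  Together with E7 DICT
(`ρ_{W,p} ⊗ 𝒪` is of type `𝒟^c_Σ` with residual `ρ̄`) and `RTData.exists_point` they give
helper33's `ModPointStmtP p` (`GE/Top/S59Nodes`).
-/
import Fermat.Agent.GE.Graph.RTStmt
import Fermat.Prelude.Def_FLTPrelim_ModularRep
import Fermat.Prelude.Def_GaloisRep_Residual

set_option autoImplicit false

open Polynomial IsLocalRing CuspForm WeierstrassCurve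
open scoped WeierstrassCurve.Affine

namespace Fermat.Agent.GE.Graph

/-- The conclusion of the engine for a deformation problem `cond` (`condFL` or `condSO`). -/
def RTConcl (p : ℕ) [Fact p.Prime] (W : WeierstrassCurve ℤ)
    (hcard₁ : Nat.card (Submodule.torsionBy ℤ
      ((W.map (Int.castRingHom ℚ))⁄(AlgebraicClosure ℚ)).Point p) = p ^ 2)
    (hker : GaloisFactorsThroughFiniteLevel
      (WeierstrassCurve.Affine.Point.galoisRepModuleEnd (K := AlgebraicClosure ℚ) ℚ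
        (W.map (Int.castRingHom ℚ)) p))
    (cond : ∀ (𝒪 : Type) [CommRing 𝒪], ℕ → Finset ℕ → Finset ℕ → DefCondE 𝒪) : Prop :=
  ∃ (𝒪 : Type) (_ : CommRing 𝒪) (_ : IsDomain 𝒪) (_ : IsDiscreteValuationRing 𝒪)
    (_ : IsAdicComplete (maximalIdeal 𝒪) 𝒪) (_ : Finite (ResidueField 𝒪)) (_ : CharZero 𝒪)
    (_ : Algebra ℤ_[p] 𝒪) (_ : IsLocalHom (algebraMap ℤ_[p] 𝒪))
    (_ : Algebra (ZMod p) (ResidueField 𝒪)) (Smin Sig : Finset ℕ),
    -- the frozen-S56 clauses on `Smin`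
    p ∈ Smin ∧ (∀ q ∈ Smin, q.Prime) ∧
    (∀ q : ℕ, q.Prime → q ≠ p →
      (q ∈ Smin ↔ ¬ (((W.map (Int.castRingHom ℚ)).residualGaloisRepOf p hcard₁ hker).baseChange
        (ResidueField 𝒪)).IsUnramifiedAt q)) ∧
    -- `Σ` = the bad primes of `W` outside `Smin`
    (∀ q : ℕ, q ∈ Sig ↔ q.Prime ∧ (q : ℤ) ∣ W.Δ ∧ q ∉ Smin) ∧
    ∃ X' : RTData (((W.map (Int.castRingHom ℚ)).residualGaloisRepOf p hcard₁ hker).baseChange
        (ResidueField 𝒪)) (cond 𝒪 p Smin Sig),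
      -- the level is admissible
      ¬ p ^ 2 ∣ X'.N ∧ (∀ q : ℕ, q.Prime → ¬ q ^ 3 ∣ X'.N) ∧
      (∀ q ∈ Smin ∪ Sig, q ≠ p → q ∣ X'.N) ∧
      (∀ ℓ ∈ X'.S, ℓ.Prime → ℓ ∣ X'.N ∨ ℓ = p)

/-- **ENGINE CONTRACT, flat case**: `W` good at `p`. -/
def RTStmtFL (p : ℕ) [Fact p.Prime] : Prop :=
  ∀ (W : WeierstrassCurve ℤ), W.Δ ≠ 0 → W.IsSemistableModel → W.ModRepIsIrreducible p →
    ∀ (hcard₁ : Nat.card (Submodule.torsionBy ℤ
      ((W.map (Int.castRingHom ℚ))⁄(AlgebraicClosure ℚ)).Point p) = p ^ 2)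
    (hker : GaloisFactorsThroughFiniteLevel
      (WeierstrassCurve.Affine.Point.galoisRepModuleEnd (K := AlgebraicClosure ℚ) ℚ
        (W.map (Int.castRingHom ℚ)) p))
    (M₀ : ℕ) [NeZero M₀], W.IsResiduallyModularOfLevel p M₀ → ¬ p ^ 2 ∣ M₀ →
    (∀ q : ℕ, q.Prime → q ≠ p → ¬ q ^ 3 ∣ M₀) → W.IsGoodPrimeFor p →
    RTConcl p W hcard₁ hker (fun 𝒪 _ => condFL 𝒪)

/-- **ENGINE CONTRACT, strict-ordinary case**: `W` multiplicative at `p`. -/
def RTStmtSO (p : ℕ) [Fact p.Prime] : Prop :=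
  ∀ (W : WeierstrassCurve ℤ), W.Δ ≠ 0 → W.IsSemistableModel → W.ModRepIsIrreducible p →
    ∀ (hcard₁ : Nat.card (Submodule.torsionBy ℤ
      ((W.map (Int.castRingHom ℚ))⁄(AlgebraicClosure ℚ)).Point p) = p ^ 2)
    (hker : GaloisFactorsThroughFiniteLevel
      (WeierstrassCurve.Affine.Point.galoisRepModuleEnd (K := AlgebraicClosure ℚ) ℚ
        (W.map (Int.castRingHom ℚ)) p))
    (M₀ : ℕ) [NeZero M₀], W.IsResiduallyModularOfLevel p M₀ → ¬ p ^ 2 ∣ M₀ →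
    (∀ q : ℕ, q.Prime → q ≠ p → ¬ q ^ 3 ∣ M₀) → (p : ℤ) ∣ W.Δ →
    RTConcl p W hcard₁ hker (fun 𝒪 _ => condSO 𝒪)

end Fermat.Agent.GE.Graph
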